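/-
S55 / block EXIST : the abstract (pure group theory) form of the existence argument; definitions.
`X` plays the role of `Kˣ` (written additively), `ι` = the places outside `T`, `τ` = the places
of `T`, `d : X → ⨁_ι ℤ` the divisor map, `P w` the local `p`-th powers at `w ∈ T`.
-/
import Mathlib

set_option autoImplicit false

namespace Fermat.Agent.S55.Exist.Abs

noncomputable section

variable (p : ℕ) {X ι τ : Type*} [AddCommGroup X]

/-- The subgroup `pX`. -/
def pMul (X : Type*) [AddCommGroup X] : AddSubgroup X := (zsmulAddGroupHom (p : ℤ) : X →+ X).range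

variable {p} in
theorem mem_pMul {x : X} : x ∈ pMul p X ↔ ∃ y : X, (p : ℤ) • y = x := Iff.rfl

/-- `{a : d a ∈ p ⨁ ℤ}` (the "Selmer group" `V^T`). -/
def selS (d : X →+ (ι →₀ ℤ)) : AddSubgroup X := (pMul p (ι →₀ ℤ)).comap d

/-- `{a ∈ V^T : a ∈ P w for all w}` (the group `V_T`). -/
def selT (d : X →+ (ι →₀ ℤ)) (P : τ → AddSubgroup X) : AddSubgroup X := selS p d ⊓ ⨅ w, P w

/-- `d X + p ⨁ ℤ`; the quotient of `⨁ ℤ` by it is `Cl_T / p`. -/
def relQ (d : X →+ (ι →₀ ℤ)) : AddSubgroup (ι →₀ ℤ) := d.range ⊔ pMul p (ι →₀ ℤ)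

/-- `D ↦ ∑_i D i • g i a`. -/
def ev (g : ι → X →+ ZMod p) (a : X) : (ι →₀ ℤ) →+ ZMod p :=
  Finsupp.liftAddHom fun i => zmultiplesHom (ZMod p) (g i a)

variable {p} in
theorem ev_apply (g : ι → X →+ ZMod p) (a : X) (D : ι →₀ ℤ) :
    ev p g a D = D.sum fun i n => n • g i a := rfl

variable {p} in
@[simp] theorem ev_single (g : ι → X →+ ZMod p) (a : X) (i : ι) (n : ℤ) :
    ev p g a (Finsupp.single i n) = n • g i a := by
  simp [ev]

end

end Fermat.Agent.S55.Exist.Abs
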