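/-
S55 / block EXIST, node EXIST-ABS-1: `[V^T : pX] = [E : E ∩ pX] · |Cl_T / p|`.
-/
import Fermat.Agent.S55.Exist.Abs.Defs

set_option autoImplicit false

namespace Fermat.Agent.S55.Exist.Abs

variable {p : ℕ} {X ι τ : Type*} [AddCommGroup X]

/-- In a group `I` on which multiplication by `m` is injective: for `R` of finite index,
`[{D : m D ∈ R} : R] = [I : R + m I]`. -/
theorem count_aux_relIndex_comap {I : Type*} [AddCommGroup I] (m : I →+ I)
    (R : AddSubgroup I) (hR : R.index ≠ 0) (hle : R ≤ R.comap m) :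
    R.relIndex (R.comap m) = (R ⊔ m.range).index := by
  have h1 : R.relIndex (R.comap m) * (R.comap m).index = R.index :=
    AddSubgroup.relIndex_mul_index hle
  have h2 : R.relIndex (R ⊔ m.range) * (R ⊔ m.range).index = R.index :=
    AddSubgroup.relIndex_mul_index le_sup_left
  have h3 : (R.comap m).index = R.relIndex (R ⊔ m.range) := by
    rw [AddSubgroup.index_comap, AddSubgroup.relIndex_sup_left]
  have h4 : R.relIndex (R ⊔ m.range) ≠ 0 := by
    intro h
    rw [h, zero_mul] at h2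
    exact hR h2.symm
  rw [h3, ← h2, mul_comm] at h1
  exact Nat.eq_of_mul_eq_mul_left (Nat.pos_of_ne_zero h4) h1

/-- EXIST-ABS-1. `[V^T : pX] = [E : E ∩ pX] · |Cl_T / p|`, `E = ker d`. -/
theorem relIndex_selS (hp : p.Prime) (d : X →+ (ι →₀ ℤ)) (hfin : d.range.index ≠ 0)
    (hE : (pMul p X).relIndex d.ker ≠ 0) :
    (pMul p X).relIndex (selS p d) = (pMul p X).relIndex d.ker * (relQ p d).index := by
  set m : (ι →₀ ℤ) →+ (ι →₀ ℤ) := zsmulAddGroupHom (p : ℤ) with hm
  have hp0 : (p : ℤ) ≠ 0 := by exact_mod_cast hp.ne_zero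
  have hminj : Function.Injective m := by
    intro a b hab
    exact smul_right_injective _ hp0 hab
  have hmapply : ∀ D, m D = (p : ℤ) • D := fun _ => rfl
  set R := d.range with hR
  have hleR : R ≤ R.comap m := by
    intro D hD
    rw [AddSubgroup.mem_comap, hmapply]
    exact R.zsmul_mem hD _
  -- `pX ≤ E ⊔ pX ≤ S`
  have hpS : pMul p X ≤ selS p d := by
    rintro _ ⟨y, rfl⟩
    exact ⟨d y, by simp⟩
  have hES : d.ker ≤ selS p d := by
    intro a ha
    exact ⟨0, by rw [AddMonoidHom.mem_ker.1 ha]; simp⟩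
  have h1 : (pMul p X).relIndex (d.ker ⊔ pMul p X) * (d.ker ⊔ pMul p X).relIndex (selS p d)
      = (pMul p X).relIndex (selS p d) :=
    AddSubgroup.relIndex_mul_relIndex _ _ _ le_sup_right (sup_le hES hpS)
  have h2 : (pMul p X).relIndex (d.ker ⊔ pMul p X) = (pMul p X).relIndex d.ker :=
    AddSubgroup.relIndex_sup_right _ _
  have h3 : d.ker ⊔ pMul p X = (R.map m).comap d := by
    apply le_antisymm
    · apply sup_le
      · intro a ha
        rw [AddSubgroup.mem_comap, AddMonoidHom.mem_ker.1 ha]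
        exact zero_mem _
      · rintro _ ⟨y, rfl⟩
        exact ⟨d y, ⟨y, rfl⟩, by simp [hmapply]⟩
    · rintro a ⟨_, ⟨y, rfl⟩, hy⟩
      have : a = (a - (p : ℤ) • y) + (p : ℤ) • y := by abel
      rw [this]
      refine AddSubgroup.add_mem_sup ?_ ⟨y, rfl⟩
      rw [AddMonoidHom.mem_ker, map_sub, map_zsmul, ← hy, hmapply, sub_self]
  have h4 : (selS p d).map d = (R.comap m).map m := by
    ext D
    constructor
    · rintro ⟨a, ⟨D', hD'⟩, rfl⟩
      exact ⟨D', ⟨a, hD'.symm⟩, hD'⟩
    · rintro ⟨D', ⟨a, ha⟩, rfl⟩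
      exact ⟨a, ⟨D', ha.symm⟩, ha⟩
  have h5 : (d.ker ⊔ pMul p X).relIndex (selS p d) = R.relIndex (R.comap m) := by
    rw [h3, AddSubgroup.relIndex_comap, h4, AddSubgroup.relIndex_map_map_of_injective _ _ hminj]
  have h6 : R.relIndex (R.comap m) = (relQ p d).index :=
    count_aux_relIndex_comap m R hfin hleR
  rw [← h1, h2, h5, h6]

end Fermat.Agent.S55.Exist.Abs
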