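/-
S55 / block EXIST / ABS-2a : a totally isotropic subgroup of a left non-degenerate `ℤ/p`-pairing
on a finite abelian group `Y` has at most `√|Y|` elements.   Owner: helper234.
-/
import Fermat.Agent.S55.Exist.Abs.Defs

set_option autoImplicit false

namespace Fermat.Agent.S55.Exist.Abs

variable {p : ℕ}

namespace Isotropic

/-- `|Hom(G, ℤ/p)| ≤ |G|` (private copy, through complex characters). -/
theorem card_addHom_le [NeZero p] (G : Type*) [AddCommGroup G] [Finite G] :
    Finite (G →+ ZMod p) ∧ Nat.card (G →+ ZMod p) ≤ Nat.card G := by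
  classical
  have : Fintype G := Fintype.ofFinite G
  have hinj : Function.Injective
      (fun f : G →+ ZMod p => (ZMod.stdAddChar (N := p)).compAddMonoidHom f) := by
    intro f g h
    ext x
    have h2 := DFunLike.congr_fun h x
    exact ZMod.injective_stdAddChar h2
  have hfin : Finite (G →+ ZMod p) := Finite.of_injective _ hinj
  refine ⟨hfin, ?_⟩
  have h1 := Nat.card_le_card_of_injective _ hinj
  have h2 : Nat.card (AddChar G ℂ) = Nat.card G := by
    rw [Nat.card_eq_fintype_card, Nat.card_eq_fintype_card, AddChar.card_eq]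
  exact h2 ▸ h1

end Isotropic

theorem card_sq_le_of_isotropic (hp : p.Prime) {Y : Type*} [AddCommGroup Y] [Finite Y]
    (B : Y →+ Y →+ ZMod p) (hB : ∀ x, (∀ y, B x y = 0) → x = 0) (W : AddSubgroup Y)
    (hW : ∀ x ∈ W, ∀ y ∈ W, B x y = 0) : Nat.card W ^ 2 ≤ Nat.card Y := by
  have : NeZero p := ⟨hp.ne_zero⟩
  obtain ⟨hfin, hle⟩ := Isotropic.card_addHom_le (p := p) (Y ⧸ W)
  have hinj : Function.Injective (fun x : W =>
      (QuotientAddGroup.lift W (B x) (fun y hy => hW x x.2 y hy) : Y ⧸ W →+ ZMod p)) := by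
    intro x x' h
    apply Subtype.ext
    rw [← sub_eq_zero]
    apply hB
    intro y
    have h2 : B x y = B x' y := DFunLike.congr_fun h (QuotientAddGroup.mk y)
    rw [map_sub, AddMonoidHom.sub_apply, h2, sub_self]
  have h1 : Nat.card W ≤ Nat.card (Y ⧸ W) := (Nat.card_le_card_of_injective _ hinj).trans hle
  have h2 : Nat.card W * W.index = Nat.card Y := W.card_mul_index
  calc Nat.card W ^ 2 = Nat.card W * Nat.card W := pow_two _
    _ ≤ Nat.card W * Nat.card (Y ⧸ W) := Nat.mul_le_mul_left _ h1
    _ = Nat.card Y := h2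

end Fermat.Agent.S55.Exist.Abs
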