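/-
S55 / block EXIST, node EXIST-ABS-2b: `[V' : V' ∩ ⋂ P_w] ≤ p ^ e` from isotropy.
`relIndex_iInf_le_of` takes the instance of ABS-2a which is needed as a hypothesis.
Proofs: helper61.
-/
import Fermat.Agent.S55.Exist.Abs.Defs
import Fermat.Agent.S55.Exist.Abs.Isotropic

set_option autoImplicit false

namespace Fermat.Agent.S55.Exist.Abs

namespace IsotropicIndex

variable {p : ℕ} {X τ : Type*} [AddCommGroup X]

/-- a pairing vanishing on `P` on both sides descends to the quotient. -/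
noncomputable def descend (P : AddSubgroup X) (h : X →+ X →+ ZMod p)
    (hl : ∀ a b, a ∈ P → h a b = 0) (hr : ∀ a b, b ∈ P → h a b = 0) :
    X ⧸ P →+ X ⧸ P →+ ZMod p :=
  (QuotientAddGroup.lift P
    (QuotientAddGroup.lift P h (fun a ha => by ext b; exact hl a b ha)).flip
    (fun b hb => by
      ext a
      exact hr a b hb)).flip

theorem descend_mk (P : AddSubgroup X) (h : X →+ X →+ ZMod p)
    (hl : ∀ a b, a ∈ P → h a b = 0) (hr : ∀ a b, b ∈ P → h a b = 0) (a b : X) :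
    descend P h hl hr (QuotientAddGroup.mk a) (QuotientAddGroup.mk b) = h a b := rfl

end IsotropicIndex

open IsotropicIndex

variable {p : ℕ} {X τ : Type*} [AddCommGroup X]

theorem relIndex_iInf_le_of [Fintype τ] (P : τ → AddSubgroup X)
    (H2a : ∀ [Finite ((w : τ) → X ⧸ P w)]
      (B : ((w : τ) → X ⧸ P w) →+ ((w : τ) → X ⧸ P w) →+ ZMod p),
      (∀ x, (∀ y, B x y = 0) → x = 0) → ∀ W : AddSubgroup ((w : τ) → X ⧸ P w),
      (∀ x ∈ W, ∀ y ∈ W, B x y = 0) → Nat.card W ^ 2 ≤ Nat.card ((w : τ) → X ⧸ P w))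
    (hp : p.Prime)
    (h : τ → X →+ X →+ ZMod p) (e : ℕ) (hP : ∏ w, (P w).index = p ^ (2 * e))
    (hl : ∀ w a b, a ∈ P w → h w a b = 0) (hr : ∀ w a b, b ∈ P w → h w a b = 0)
    (hnd : ∀ w a, (∀ b, h w a b = 0) → a ∈ P w)
    (V' : AddSubgroup X) (hiso : ∀ a ∈ V', ∀ b ∈ V', ∑ w, h w a b = 0) :
    (⨅ w, P w).relIndex V' ≠ 0 ∧ (⨅ w, P w).relIndex V' ≤ p ^ e := by
  classical
  have hidx : ∀ w, (P w).index ≠ 0 := by
    have h0 : ∏ w, (P w).index ≠ 0 := by
      rw [hP]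
      exact pow_ne_zero _ hp.ne_zero
    intro w
    exact Finset.prod_ne_zero_iff.mp h0 w (Finset.mem_univ w)
  have hfinq : ∀ w, Finite (X ⧸ P w) := fun w =>
    have : (P w).FiniteIndex := ⟨hidx w⟩
    AddSubgroup.finite_quotient_of_finiteIndex
  have hfinY : Finite ((w : τ) → X ⧸ P w) := Pi.finite
  have hcardY : Nat.card ((w : τ) → X ⧸ P w) = p ^ (2 * e) := by
    rw [Nat.card_pi, ← hP]
    rfl
  let hbar : ∀ w, X ⧸ P w →+ X ⧸ P w →+ ZMod p := fun w => descend (P w) (h w) (hl w) (hr w)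
  let B : ((w : τ) → X ⧸ P w) →+ ((w : τ) → X ⧸ P w) →+ ZMod p :=
    ∑ w, ((hbar w).compl₂ (Pi.evalAddMonoidHom (fun w => X ⧸ P w) w)).comp
      (Pi.evalAddMonoidHom (fun w => X ⧸ P w) w)
  have hB : ∀ x y, B x y = ∑ w, hbar w (x w) (y w) := by
    intro x y
    simp only [B, AddMonoidHom.finsetSum_apply]
    rfl
  have hBnd : ∀ x, (∀ y, B x y = 0) → x = 0 := by
    intro x hx
    funext w0
    obtain ⟨a, ha⟩ := QuotientAddGroup.mk_surjective (x w0)
    rw [← ha]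
    show (QuotientAddGroup.mk a : X ⧸ P w0) = 0
    rw [QuotientAddGroup.eq_zero_iff]
    apply hnd
    intro b
    have h1 := hx (Pi.single w0 (QuotientAddGroup.mk b))
    rw [hB, Finset.sum_eq_single w0] at h1
    · rw [Pi.single_eq_same, ← ha] at h1
      exact h1
    · intro w _ hw
      rw [Pi.single_eq_of_ne hw, map_zero]
    · intro hw
      exact absurd (Finset.mem_univ w0) hw
  let diag : X →+ ((w : τ) → X ⧸ P w) := AddMonoidHom.pi fun w => QuotientAddGroup.mk' (P w)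
  have hker : diag.ker = ⨅ w, P w := by
    ext x
    rw [AddMonoidHom.mem_ker, AddSubgroup.mem_iInf]
    constructor
    · intro hx w
      have := congrFun hx w
      exact (QuotientAddGroup.eq_zero_iff x).mp this
    · intro hx
      funext w
      exact (QuotientAddGroup.eq_zero_iff x).mpr (hx w)
  have hW : ∀ x ∈ V'.map diag, ∀ y ∈ V'.map diag, B x y = 0 := by
    rintro _ ⟨a, ha, rfl⟩ _ ⟨b, hb, rfl⟩
    rw [hB]
    exact hiso a ha b hb
  have hcard := H2a B hBnd (V'.map diag) hW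
  rw [← hker, AddSubgroup.relIndex_ker]
  refine ⟨Nat.card_pos.ne', ?_⟩
  rw [hcardY, mul_comm, pow_mul] at hcard
  exact (Nat.pow_le_pow_iff_left (by norm_num)).mp hcard

/-- EXIST-ABS-2b. Apply ABS-2a to `Y = ∏_w X / P w`, `B x y = ∑_w h w x_w y_w`,
`W` = image of `V'`. -/
theorem relIndex_iInf_le (hp : p.Prime) [Fintype τ] (P : τ → AddSubgroup X)
    (h : τ → X →+ X →+ ZMod p) (e : ℕ) (hP : ∏ w, (P w).index = p ^ (2 * e))
    (hl : ∀ w a b, a ∈ P w → h w a b = 0) (hr : ∀ w a b, b ∈ P w → h w a b = 0)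
    (hnd : ∀ w a, (∀ b, h w a b = 0) → a ∈ P w)
    (V' : AddSubgroup X) (hiso : ∀ a ∈ V', ∀ b ∈ V', ∑ w, h w a b = 0) :
    (⨅ w, P w).relIndex V' ≠ 0 ∧ (⨅ w, P w).relIndex V' ≤ p ^ e :=
  relIndex_iInf_le_of P (fun B hB W hW => card_sq_le_of_isotropic hp B hB W hW) hp h e hP hl hr
    hnd V' hiso

end Fermat.Agent.S55.Exist.Abs
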