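/-
S55 / block EXIST, node EXIST-ABS-3 : a pairing `V × A → ℤ/p` which is injective on the left and
with `|A| ≤ |V|` has trivial right kernel.
-/
import Fermat.Agent.S55.Exist.Abs.Defs

set_option autoImplicit false

namespace Fermat.Agent.S55.Exist.Abs

variable {p : ℕ}

namespace Perfect

/-- the dual of a finite `𝔽_p`-vector space has the same cardinality. -/
theorem card_hom_eq_of_module [Fact p.Prime] (Q : Type*) [AddCommGroup Q] [Module (ZMod p) Q]
    [Finite Q] : Nat.card (Q →+ ZMod p) = Nat.card Q := by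
  have : Module.Finite (ZMod p) Q := Module.Finite.of_finite
  rw [Nat.card_congr (AddMonoidHom.toZModLinearMapEquiv p (M := Q) (M₁ := ZMod p)).toEquiv]
  exact (Nat.card_congr (Module.finBasis (ZMod p) Q).toDualEquiv.toEquiv).symm

/-- `|Hom(G, ℤ/p)| ≤ |G|` (own copy, so that this file only depends on `Defs`). -/
theorem card_hom_le (hp : p.Prime) (G : Type*) [AddCommGroup G] [Finite G] :
    Finite (G →+ ZMod p) ∧ Nat.card (G →+ ZMod p) ≤ Nat.card G := by
  have : Fact p.Prime := ⟨hp⟩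
  have hfin : ∀ (H : Type _) [AddCommGroup H] [Finite H], Finite (H →+ ZMod p) := fun H _ _ =>
    Finite.of_injective (fun f => (f : H → ZMod p)) DFunLike.coe_injective
  refine ⟨hfin G, ?_⟩
  let _ : Module (ZMod p) (G ⧸ pMul p G) := AddCommGroup.zmodModule (by
    intro x
    obtain ⟨g, rfl⟩ := QuotientAddGroup.mk_surjective x
    rw [← QuotientAddGroup.mk_nsmul, QuotientAddGroup.eq_zero_iff]
    exact ⟨g, by simp⟩)
  have hN : ∀ f : G →+ ZMod p, ∀ x ∈ pMul p G, f x = 0 := by
    rintro f _ ⟨y, rfl⟩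
    simp
  let Ψ : (G →+ ZMod p) → (G ⧸ pMul p G →+ ZMod p) := fun f =>
    QuotientAddGroup.lift (pMul p G) f (hN f)
  have hΨ : Function.Injective Ψ := by
    intro f f' h
    ext x
    have := congrArg (fun φ => φ (QuotientAddGroup.mk x)) h
    exact this
  have := hfin (G ⧸ pMul p G)
  have h1 : Nat.card (G →+ ZMod p) ≤ Nat.card (G ⧸ pMul p G →+ ZMod p) :=
    Nat.card_le_card_of_injective Ψ hΨ
  have h2 := card_hom_eq_of_module (p := p) (G ⧸ pMul p G)
  have h3 : Nat.card (G ⧸ pMul p G) ≤ Nat.card G :=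
    Nat.card_le_card_of_surjective _ (QuotientAddGroup.mk_surjective (s := pMul p G))
  omega

end Perfect

/-- EXIST-ABS-3 (file Perfect.lean). Proof: `C` = right kernel; `V ↪ Hom(A/C, ℤ/p)`, ABS-0. -/
theorem eq_zero_of_card_le (hp : p.Prime) {V A : Type*} [AddCommGroup V] [AddCommGroup A]
    [Finite A] (Φ : V →+ A →+ ZMod p) (hinj : Function.Injective Φ)
    (hcard : Nat.card A ≤ Nat.card V) (c : A) (hc : ∀ a, Φ a c = 0) : c = 0 := by
  let C : AddSubgroup A := ⨅ a, (Φ a).ker
  have hC : ∀ x, x ∈ C ↔ ∀ a, Φ a x = 0 := by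
    intro x
    simp only [C, AddSubgroup.mem_iInf, AddMonoidHom.mem_ker]
  let Ψ : V → (A ⧸ C →+ ZMod p) := fun a =>
    QuotientAddGroup.lift C (Φ a) (fun x hx => (hC x).1 hx a)
  have hΨ : Function.Injective Ψ := by
    intro a b h
    apply hinj
    ext x
    have := congrArg (fun φ => φ (QuotientAddGroup.mk x)) h
    exact this
  obtain ⟨hfin, hle⟩ := Perfect.card_hom_le hp (A ⧸ C)
  have h1 : Nat.card V ≤ Nat.card (A ⧸ C →+ ZMod p) := Nat.card_le_card_of_injective Ψ hΨ
  have h2 : Nat.card A = Nat.card (A ⧸ C) * Nat.card C :=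
    AddSubgroup.card_eq_card_quotient_mul_card_addSubgroup C
  have hpos : 0 < Nat.card A := Nat.card_pos
  have h3 : Nat.card A * Nat.card C ≤ Nat.card A * 1 := by
    rw [mul_one]
    calc Nat.card A * Nat.card C ≤ Nat.card (A ⧸ C) * Nat.card C :=
          Nat.mul_le_mul_right _ (hcard.trans (h1.trans hle))
      _ = Nat.card A := h2.symm
  have h4 : Nat.card C ≤ 1 := Nat.le_of_mul_le_mul_left h3 hpos
  have h5 : C = ⊥ := AddSubgroup.eq_bot_of_card_le C h4
  have h6 : c ∈ C := (hC c).2 hc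
  rw [h5] at h6
  exact (AddSubgroup.mem_bot).1 h6

end Fermat.Agent.S55.Exist.Abs
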