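/-
S55 / block EXIST : the abstract existence theorem (node EXIST-ABS-4).  Owner: helper217.
-/
import Fermat.Agent.S55.Exist.Abs.Defs
import Fermat.Agent.S55.Exist.Abs.Count
import Fermat.Agent.S55.Exist.Abs.IsotropicIndex
import Fermat.Agent.S55.Exist.Abs.Perfect

set_option autoImplicit false

namespace Fermat.Agent.S55.Exist.Abs

variable {p : ℕ} {X ι τ : Type*} [AddCommGroup X]

theorem am_natCast_zsmul_zmod (z : ZMod p) : (p : ℤ) • z = 0 := by
  rw [zsmul_eq_mul, Int.cast_natCast, ZMod.natCast_self, zero_mul]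

/-- a homomorphism to `ℤ/p` kills `pX` -/
theorem am_map_eq_zero_of_mem_pMul {Y : Type*} [AddCommGroup Y] (f : Y →+ ZMod p) {x : Y}
    (hx : x ∈ pMul p Y) : f x = 0 := by
  obtain ⟨y, rfl⟩ := mem_pMul.mp hx
  rw [map_zsmul, am_natCast_zsmul_zmod]

theorem am_pMul_le_selS (d : X →+ (ι →₀ ℤ)) : pMul p X ≤ selS p d := by
  intro x hx
  obtain ⟨y, rfl⟩ := mem_pMul.mp hx
  exact mem_pMul.mpr ⟨d y, (map_zsmul d _ _).symm⟩

theorem am_pMul_le_of_nondeg (P : AddSubgroup X) (h : X →+ X →+ ZMod p)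
    (hnd : ∀ a, (∀ b, h a b = 0) → a ∈ P) : pMul p X ≤ P := by
  intro x hx
  refine hnd x fun b => ?_
  exact am_map_eq_zero_of_mem_pMul ((AddMonoidHom.eval b).comp h) hx

/-- `ev` as a homomorphism in the first variable -/
noncomputable def amEvHom (g : ι → X →+ ZMod p) : X →+ (ι →₀ ℤ) →+ ZMod p where
  toFun a := ev p g a
  map_zero' := by
    ext i
    simp
  map_add' a b := by
    ext i
    simp

@[simp] theorem am_evHom_apply (g : ι → X →+ ZMod p) (a : X) : amEvHom g a = ev p g a := rfl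

/-- The abstract existence theorem. -/
theorem abs_main (hp : p.Prime) [Fintype τ] (d : X →+ (ι →₀ ℤ)) (P : τ → AddSubgroup X)
    (h : τ → X →+ X →+ ZMod p) (g : ι → X →+ ZMod p) (e : ℕ)
    (hfin : d.range.index ≠ 0)
    (hE : (pMul p X).relIndex d.ker = p ^ e)
    (hP : ∏ w, (P w).index = p ^ (2 * e))
    (hl : ∀ w a b, a ∈ P w → h w a b = 0) (hr : ∀ w a b, b ∈ P w → h w a b = 0)
    (hnd : ∀ w a, (∀ b, h w a b = 0) → a ∈ P w)
    (hrec : ∀ a ∈ selS p d, ∀ b, ∑ w, h w a b + ev p g a (d b) = 0)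
    (hsep : ∀ a ∈ selT p d P, (∀ i, g i a = 0) → a ∈ pMul p X)
    (D : ι →₀ ℤ) (hD : ∀ a ∈ selT p d P, ev p g a D = 0) : D ∈ relQ p d := by
  have hpe : p ^ e ≠ 0 := pow_ne_zero _ hp.ne_zero
  -- inclusions
  have hTS : selT p d P ≤ selS p d := inf_le_left
  have hTP : ∀ w, selT p d P ≤ P w := fun w => inf_le_right.trans (iInf_le _ w)
  have hXT : pMul p X ≤ selT p d P :=
    le_inf (am_pMul_le_selS d) (le_iInf fun w => am_pMul_le_of_nondeg (P w) (h w) (hnd w))
  -- isotropy
  have hiso : ∀ a ∈ selS p d, ∀ b ∈ selS p d, ∑ w, h w a b = 0 := by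
    intro a ha b hb
    have h1 := hrec a ha b
    rwa [am_map_eq_zero_of_mem_pMul (ev p g a) (x := d b) hb, add_zero] at h1
  -- counting
  obtain ⟨h2ne, h2le⟩ := relIndex_iInf_le hp P h e hP hl hr hnd (selS p d) hiso
  have h2 : (selT p d P).relIndex (selS p d) = (⨅ w, P w).relIndex (selS p d) :=
    AddSubgroup.inf_relIndex_left _ _
  have h1 := relIndex_selS hp d hfin (by rw [hE]; exact hpe)
  rw [hE, ← AddSubgroup.relIndex_mul_relIndex _ _ _ hXT hTS, h2] at h1
  have hcard : (relQ p d).index ≤ (pMul p X).relIndex (selT p d P) := by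
    have h3 : p ^ e * (relQ p d).index ≤ p ^ e * (pMul p X).relIndex (selT p d P) := by
      rw [← h1, mul_comm]
      exact Nat.mul_le_mul_right _ h2le
    exact Nat.le_of_mul_le_mul_left h3 (Nat.pos_of_ne_zero hpe)
  have hQne : (relQ p d).index ≠ 0 := by
    intro h0
    have : (relQ p d).index ∣ d.range.index := AddSubgroup.index_dvd_of_le le_sup_left
    rw [h0, zero_dvd_iff] at this
    exact hfin this
  have : (relQ p d).FiniteIndex := ⟨hQne⟩
  -- the pairing
  have hkill : ∀ a ∈ selT p d P, relQ p d ≤ (ev p g a).ker := by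
    intro a ha
    refine sup_le ?_ ?_
    · rintro _ ⟨b, rfl⟩
      have h3 := hrec a (hTS ha) b
      rw [Finset.sum_eq_zero (fun w _ => hl w a b (hTP w ha)), zero_add] at h3
      exact h3
    · intro x hx
      exact am_map_eq_zero_of_mem_pMul _ hx
  let Φ0 : selT p d P →+ ((ι →₀ ℤ) ⧸ relQ p d) →+ ZMod p :=
    { toFun := fun a => QuotientAddGroup.lift (relQ p d) (ev p g a) (hkill a a.2)
      map_zero' := by
        ext x
        simp
      map_add' := fun a b => by
        ext x
        simp }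
  have hΦ0 : ∀ (a : selT p d P) (x : ι →₀ ℤ), Φ0 a (QuotientAddGroup.mk x) = ev p g a x :=
    fun a x => rfl
  have hΦ0kill : ∀ a ∈ (pMul p X).addSubgroupOf (selT p d P), Φ0 a = 0 := by
    intro a ha
    refine AddMonoidHom.ext fun y => ?_
    induction y using QuotientAddGroup.induction_on with
    | H x =>
      rw [hΦ0]
      exact am_map_eq_zero_of_mem_pMul ((AddMonoidHom.eval x).comp (amEvHom g)) (x := (a : X))
        (AddSubgroup.mem_addSubgroupOf.mp ha)
  let Φ : (selT p d P ⧸ (pMul p X).addSubgroupOf (selT p d P)) →+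
      ((ι →₀ ℤ) ⧸ relQ p d) →+ ZMod p :=
    QuotientAddGroup.lift _ Φ0 hΦ0kill
  have hΦ : ∀ (a : selT p d P) (x : ι →₀ ℤ),
      Φ (QuotientAddGroup.mk a) (QuotientAddGroup.mk x) = ev p g a x := fun a x => rfl
  have hinj : Function.Injective Φ := by
    rw [injective_iff_map_eq_zero]
    intro v hv
    induction v using QuotientAddGroup.induction_on with
    | H a =>
      rw [QuotientAddGroup.eq_zero_iff]
      refine hsep a a.2 fun i => ?_
      have h4 := hΦ a (Finsupp.single i 1)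
      rw [hv, ev_single, one_zsmul] at h4
      exact h4.symm
  have key := eq_zero_of_card_le hp Φ hinj hcard (QuotientAddGroup.mk D) (by
    intro v
    induction v using QuotientAddGroup.induction_on with
    | H a => exact (hΦ a D).trans (hD a a.2))
  exact (QuotientAddGroup.eq_zero_iff D).mp key

end Fermat.Agent.S55.Exist.Abs
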