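/-
S55 / EXIST, node EXIST-ABS-0 (owner helper267): `|Hom(G, ℤ/p)| ≤ |G|` for a finite abelian group.
Proof: compose with the standard (injective) additive character `ℤ/p → ℂ` and count characters.
-/
import Fermat.Agent.S55.Exist.Abs.Defs

set_option autoImplicit false

namespace Fermat.Agent.S55.Exist.Abs

variable {p : ℕ}

theorem card_addHom_zmod_le (hp : p.Prime) (G : Type*) [AddCommGroup G] [Finite G] :
    Finite (G →+ ZMod p) ∧ Nat.card (G →+ ZMod p) ≤ Nat.card G := by
  have := Fact.mk hp
  have hfin : Finite (G →+ ZMod p) :=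
    Finite.of_injective (fun f => (f : G → ZMod p)) DFunLike.coe_injective
  refine ⟨hfin, ?_⟩
  have := Fintype.ofFinite G
  let Φ : (G →+ ZMod p) → AddChar G ℂ := fun f => (ZMod.stdAddChar (N := p)).compAddMonoidHom f
  have hΦ : Function.Injective Φ := by
    intro f g h
    ext x
    have h1 := DFunLike.congr_fun h x
    exact ZMod.injective_stdAddChar h1
  calc Nat.card (G →+ ZMod p) ≤ Nat.card (AddChar G ℂ) := Nat.card_le_card_of_injective Φ hΦ
    _ = Nat.card G := by
      rw [Nat.card_eq_fintype_card, Nat.card_eq_fintype_card, AddChar.card_eq]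

end Fermat.Agent.S55.Exist.Abs
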